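/-
GATE-Z (S15) / [MOD-alpha], INSTANCE half, abstract part (helper16; claims row GZ-MOD-ALPHA-INST).

Frame of `GH/Vocab.lean`: `R : RedData K F k Ft`, `H : LSpaceHyp R g c`, place reduction `rOf H`.

* `no_cancel` : if `y : R.Rw` keeps its pole degree under reduction
  (`deg (y)_∞ ≤ deg (red y)_∞`), then NO residue disc contains both a zero and a pole of `y`;
  `no_cancel_of_finrank` : the same from degree preservation `[F : K(y)] ≤ [Ft : k(red y)]`.
* `ord_red_eq_single` : `ord_Q (red y) = ord_{P₀} y` if `P₀ ↦ Q` is the only zero / pole of `y`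
  in the disc of `Q`.
* `rOf_ne_of_sep` : a function `G` with `div G = m ((Pz) − (Pi))` and transcendental reduction
  separates the reductions of `Pi` and `Pz`.
* `GenCusp Pi Pz J Jp p` : the generic-fibre cusp data (`ord J = (−1, −p)`, `ord Jp = (−p, −1)` at
  `(Pi, Pz)`, no other poles).
* **`cuspHyp_of_gen`** : `GenCusp` + degree preservation at `J` and `Jp` + separation
  ⟹ helper48's `AlphaDisc.CuspHyp H (rOf H Pi) (rOf H Pz) J Jp p`.
-/
import Mathlib
import Fermat.Agent.GZ.Mod.AlphaDisc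
import Fermat.Agent.GH.L3.Shift
import Fermat.Agent.GJ.S37.PoleDeg
import Fermat.Agent.GJ.S37.PlaceMap
import Fermat.Agent.GJ.FF.ValRing

set_option autoImplicit false
set_option linter.unusedSectionVars false

noncomputable section

open AlgebraicCurve IntermediateField

namespace Fermat.Agent.GZ.Mod.Inst

open Fermat.Agent.RRh45 Fermat.Agent.GJ.S37MinDiv Fermat.Agent.GJ.J1 Fermat.Agent.GJ.S37LSpace
  Fermat.Agent.GJ.S37ROfSurj Fermat.Agent.S24 Fermat.Agent.GH Fermat.Agent.GH.Disc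
  Fermat.Agent.GZ.Mod.AlphaDisc

/-! ### push-forward of effective `Finsupp`s -/

section Fin

variable {α β : Type*}

theorem mapDomain_nonneg_of_nonneg (f : α → β) {D : α →₀ ℤ} (hD : 0 ≤ D) :
    0 ≤ Finsupp.mapDomain f D := by
  classical
  intro b
  rw [mapDomain_apply_eq_sum, Finsupp.zero_apply]
  exact Finset.sum_nonneg fun a _ => hD a

/-- if the push-forward of an effective `D` vanishes at `b`, then `D` vanishes on the fibre. -/
theorem eq_zero_of_mapDomain_eq_zero (f : α → β) {D : α →₀ ℤ} (hD : 0 ≤ D) {b : β}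
    (h : Finsupp.mapDomain f D b = 0) {a : α} (ha : f a = b) : D a = 0 := by
  classical
  rw [mapDomain_apply_eq_sum] at h
  by_cases hmem : a ∈ D.support
  · have h1 := (Finset.sum_eq_zero_iff_of_nonneg (fun a' _ => hD a')).mp h a
      (Finset.mem_filter.mpr ⟨hmem, ha⟩)
    exact h1
  · exact Finsupp.notMem_support_iff.mp hmem

end Fin

section Frame

variable {K F k Ft : Type*} [Field K] [Field F] [Algebra K F] [Field k] [Field Ft] [Algebra k Ft]
variable {R : RedData K F k Ft} {g c : ℤ}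
variable [FiniteResidues K F] [HasPrincipalDivisors K F] [Nonempty (Place K F)]
variable [FiniteResidues k Ft] [HasPrincipalDivisors k Ft] [Nonempty (Place k Ft)]
variable [Infinite k]

/-! ### no cancellation -/

/-- **no cancellation** (divisor form): if the pole degree does not drop under push-forward, no
fibre of `rOf H` contains both a zero and a pole. -/
theorem no_cancel_div (H : LSpaceHyp R g c) (Dy : Divisor K F)
    (hdeg : Divisor.degree ((-Dy) ⊔ 0) ≤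
      Divisor.degree ((-(Finsupp.mapDomain (rOf H) Dy)) ⊔ 0)) (Q : Place k Ft) :
    (∀ P : Place K F, rOf H P = Q → 0 ≤ Dy P) ∨ (∀ P : Place K F, rOf H P = Q → Dy P ≤ 0) := by
  classical
  set N : Divisor K F := (-Dy) ⊔ 0 with hN
  set Z : Divisor K F := Dy ⊔ 0 with hZ
  have hN0 : 0 ≤ N := le_sup_right
  have hZ0 : 0 ≤ Z := le_sup_right
  have hNP : ∀ P, N P = max (-(Dy P)) 0 := fun P => by
    rw [hN, Finsupp.sup_apply, Finsupp.neg_apply]; rfl
  have hZP : ∀ P, Z P = max (Dy P) 0 := fun P => by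
    rw [hZ, Finsupp.sup_apply]; rfl
  have hsplit : Dy = Z - N := by
    ext P
    rw [Finsupp.sub_apply, hNP, hZP]
    rcases le_total (Dy P) 0 with h | h
    · rw [max_eq_right h, max_eq_left (by omega)]; omega
    · rw [max_eq_left h, max_eq_right (by omega)]; omega
  have hr : Finsupp.mapDomain (rOf H) Dy =
      Finsupp.mapDomain (rOf H) Z - Finsupp.mapDomain (rOf H) N := by
    conv_lhs => rw [hsplit]
    rw [← Finsupp.mapDomain.addMonoidHom_apply, map_sub, Finsupp.mapDomain.addMonoidHom_apply,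
      Finsupp.mapDomain.addMonoidHom_apply]
  have hrN0 := mapDomain_nonneg_of_nonneg (rOf H) hN0
  have hrZ0 := mapDomain_nonneg_of_nonneg (rOf H) hZ0
  set E1 : Divisor k Ft := (-(Finsupp.mapDomain (rOf H) Dy)) ⊔ 0 with hE1
  have hE1Q : ∀ Q, E1 Q = max (Finsupp.mapDomain (rOf H) N Q - Finsupp.mapDomain (rOf H) Z Q) 0 :=
    fun Q => by
      rw [hE1, Finsupp.sup_apply, Finsupp.neg_apply, hr, Finsupp.sub_apply, neg_sub]; rfl
  have hle : E1 ≤ Finsupp.mapDomain (rOf H) N := fun Q => by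
    rw [hE1Q]
    have h1 := hrN0 Q
    have h2 := hrZ0 Q
    rw [Finsupp.zero_apply] at h1 h2
    exact max_le (by omega) h1
  have hE : Finsupp.mapDomain (rOf H) N - E1 = 0 := by
    refine Fermat.Agent.GJ.S37.PlaceMap.eq_zero_of_nonneg_of_degree_eq_zero H.degFt
      (sub_nonneg.mpr hle) ?_
    have h1 : Divisor.degree (Finsupp.mapDomain (rOf H) N) = Divisor.degree N :=
      Fermat.Agent.GH.L3.degree_mapDomain H.degF H.degFt (rOf H) N
    have h2 := Fermat.Agent.GJ.S37.PlaceMap.degree_nonneg H.degFt (sub_nonneg.mpr hle)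
    rw [map_sub, h1] at h2 ⊢
    omega
  have hEQ : Finsupp.mapDomain (rOf H) N Q =
      max (Finsupp.mapDomain (rOf H) N Q - Finsupp.mapDomain (rOf H) Z Q) 0 := by
    have := congrArg (fun D : Divisor k Ft => D Q) hE
    simp only [Finsupp.sub_apply, Finsupp.zero_apply] at this
    rw [← hE1Q]; omega
  by_cases hn : Finsupp.mapDomain (rOf H) N Q = 0
  · left
    intro P hP
    have h1 := eq_zero_of_mapDomain_eq_zero (rOf H) hN0 hn hP
    rw [hNP] at h1
    have := le_max_left (-(Dy P)) 0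
    omega
  · right
    intro P hP
    have h0 := hrN0 Q
    have h0' := hrZ0 Q
    rw [Finsupp.zero_apply] at h0 h0'
    have hz : Finsupp.mapDomain (rOf H) Z Q = 0 := by
      rcases le_total (Finsupp.mapDomain (rOf H) N Q - Finsupp.mapDomain (rOf H) Z Q) 0 with h | h
      · rw [max_eq_right h] at hEQ; exact absurd hEQ hn
      · rw [max_eq_left h] at hEQ; omega
    have h1 := eq_zero_of_mapDomain_eq_zero (rOf H) hZ0 hz hP
    rw [hZP] at h1
    have := le_max_left (Dy P) 0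
    omega

/-- **no cancellation** from degree preservation at `y`. -/
theorem no_cancel_of_finrank (x₀ : F) [IsGen K x₀] (xt₀ : Ft) [IsGen k xt₀]
    (H : LSpaceHyp R g c) {y : R.Rw} (htr : Transcendental k (R.red y))
    (hfr : Module.finrank K⟮(y : F)⟯ F ≤ Module.finrank k⟮R.red y⟯ Ft) (Q : Place k Ft) :
    (∀ P : Place K F, rOf H P = Q → 0 ≤ P.ord (y : F)) ∨
      (∀ P : Place K F, rOf H P = Q → P.ord (y : F) ≤ 0) := by
  have hy : R.red y ≠ 0 := fun h => htr (h ▸ isAlgebraic_zero)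
  have hy0 : (y : F) ≠ 0 := coe_ne_zero_of_red_ne_zero hy
  obtain ⟨Dy, hDy, -⟩ := HasPrincipalDivisors.exists_divisor (K := K) (y : F) hy0
  have hDt : ∀ Q : Place k Ft, Finsupp.mapDomain (rOf H) Dy Q = Q.ord (R.red y) :=
    mapDomain_rOf_principal H hy hDy
  have hxtr : Transcendental K (y : F) :=
    Fermat.Agent.GJ.S37.ResDeg.RedData.transcendental_of_isGaussChart R ⟨y.2, htr⟩
  have h1 := Fermat.Agent.GJ.S37PoleDeg.degree_neg_sup_zero_eq_finrank x₀ hxtr hDy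
  have h2 := Fermat.Agent.GJ.S37PoleDeg.degree_neg_sup_zero_eq_finrank xt₀ htr hDt
  have hdeg : Divisor.degree ((-Dy) ⊔ 0) ≤
      Divisor.degree ((-(Finsupp.mapDomain (rOf H) Dy)) ⊔ 0) := by
    rw [h1, h2]; exact_mod_cast hfr
  rcases no_cancel_div H Dy hdeg Q with h | h
  · exact Or.inl fun P hP => by rw [← hDy P]; exact h P hP
  · exact Or.inr fun P hP => by rw [← hDy P]; exact h P hP

/-! ### orders of reductions on a fibre with a single zero / pole -/

/-- `ord_Q (red y) = ord_{P₀} y` if `P₀ ↦ Q` carries the only zero / pole of `y` over `Q`. -/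
theorem ord_red_eq_single (H : LSpaceHyp R g c) {y : R.Rw} (hy : R.red y ≠ 0) {Q : Place k Ft}
    {P₀ : Place K F} (hP₀ : rOf H P₀ = Q)
    (h : ∀ P : Place K F, rOf H P = Q → P ≠ P₀ → P.ord (y : F) = 0) :
    Q.ord (R.red y) = P₀.ord (y : F) := by
  classical
  have hy0 : (y : F) ≠ 0 := coe_ne_zero_of_red_ne_zero hy
  obtain ⟨Dy, hDy, -⟩ := HasPrincipalDivisors.exists_divisor (K := K) (y : F) hy0
  rw [ord_red_eq_sum H hy hDy Q]
  by_cases hmem : P₀ ∈ Dy.support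
  · rw [Finset.sum_eq_single_of_mem P₀ (Finset.mem_filter.mpr ⟨hmem, hP₀⟩)]
    intro P hP hne
    exact h P (Finset.mem_filter.mp hP).2 hne
  · have h0 : P₀.ord (y : F) = 0 := by
      rw [← hDy P₀]; exact Finsupp.notMem_support_iff.mp hmem
    rw [h0]
    refine Finset.sum_eq_zero fun P hP => ?_
    by_cases hPP : P = P₀
    · rw [hPP, h0]
    · exact h P (Finset.mem_filter.mp hP).2 hPP

theorem ord_pow_of_ne_zero (P : Place K F) {f : F} (hf : f ≠ 0) (n : ℕ) :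
    P.ord (f ^ n) = n * P.ord f := by
  induction n with
  | zero => simp [Place.ord_one]
  | succ n ih =>
    rw [pow_succ, P.ord_mul (pow_ne_zero _ hf) hf, ih]
    push_cast; ring

/-- a unit of `Rw`: nonzero reduction gives an inverse in `Rw`. -/
theorem inv_mem_Rw_of_red_ne_zero {e : F} (he : e ∈ R.Rw) (hred : R.red ⟨e, he⟩ ≠ 0) :
    e⁻¹ ∈ R.Rw := by
  have hnm : (⟨e, he⟩ : R.Rw) ∉ IsLocalRing.maximalIdeal R.Rw := fun h =>
    hred ((R.red_eq_zero_iff _).mpr h)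
  rw [IsLocalRing.mem_maximalIdeal, mem_nonunits_iff, not_not] at hnm
  obtain ⟨v, hv⟩ := hnm.exists_right_inv
  have h2 : e * (v : F) = 1 := congrArg Subtype.val hv
  rw [← eq_inv_of_mul_eq_one_right h2]; exact v.2

theorem red_inv_ne_zero {e : F} (he : e ∈ R.Rw) (hei : e⁻¹ ∈ R.Rw) (he0 : e ≠ 0) :
    R.red ⟨e⁻¹, hei⟩ ≠ 0 := by
  intro h
  have h1 : (⟨e, he⟩ : R.Rw) * ⟨e⁻¹, hei⟩ = 1 := Subtype.ext (mul_inv_cancel₀ he0)
  have h2 := congrArg R.red h1
  rw [map_mul, h, mul_zero, map_one] at h2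
  exact zero_ne_one h2

/-! ### separation of two places by a function with divisor `m ((Pz) − (Pi))` -/

/-- a function `G` whose only zero is `Pz` and only pole is `Pi` (orders `m`, `-m`), with
transcendental reduction, separates the reductions of `Pi` and `Pz`. -/
theorem rOf_ne_of_sep (xt₀ : Ft) [IsGen k xt₀] (H : LSpaceHyp R g c) {G : F} (hG : G ∈ R.Rw)
    (htr : Transcendental k (R.red ⟨G, hG⟩)) {Pi Pz : Place K F} (hne : Pi ≠ Pz) {m : ℤ}
    (hGi : Pi.ord G = -m) (hGz : Pz.ord G = m)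
    (hGe : ∀ P : Place K F, P ≠ Pi → P ≠ Pz → P.ord G = 0) : rOf H Pi ≠ rOf H Pz := by
  classical
  intro heq
  have hy : R.red ⟨G, hG⟩ ≠ 0 := fun h => htr (h ▸ isAlgebraic_zero)
  obtain ⟨Q, hQ⟩ := Fermat.Agent.GJ.FF.exists_place_ord_neg (K := k) xt₀ htr
  have hDy : ∀ P : Place K F,
      (Finsupp.single Pz m - Finsupp.single Pi m : Divisor K F) P = P.ord G := by
    intro P
    rw [Finsupp.sub_apply, Finsupp.single_apply, Finsupp.single_apply]
    by_cases h1 : P = Pi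
    · subst h1
      rw [if_neg (Ne.symm hne), if_pos rfl, hGi]; ring
    · by_cases h2 : P = Pz
      · subst h2
        rw [if_pos rfl, if_neg (Ne.symm h1), hGz]; ring
      · rw [if_neg (Ne.symm h2), if_neg (Ne.symm h1), hGe P h1 h2]; ring
  have h1 := mapDomain_rOf_principal H (y := ⟨G, hG⟩) hy hDy Q
  rw [← Finsupp.mapDomain.addMonoidHom_apply, map_sub, Finsupp.mapDomain.addMonoidHom_apply,
    Finsupp.mapDomain.addMonoidHom_apply, Finsupp.mapDomain_single, Finsupp.mapDomain_single,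
    heq, sub_self, Finsupp.zero_apply] at h1
  rw [← h1] at hQ
  exact lt_irrefl _ hQ

/-! ### one side of the cusp hypotheses -/

/-- **one side**: `X` has a simple pole at `P₀`, `Y` a pole of order `p` there, and neither has
another zero or pole in the disc of `Q = rOf H P₀`.  Then `X⁻¹` is a parameter at `Q` and
`X ^ p * Y⁻¹` a unit there. -/
theorem side (H : LSpaceHyp R g c) {X Y : F} (hX : X ∈ R.Rw) (hY : Y ∈ R.Rw)
    (hXr : R.red ⟨X, hX⟩ ≠ 0) (hYr : R.red ⟨Y, hY⟩ ≠ 0) {Q : Place k Ft} {P₀ : Place K F}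
    (hP₀ : rOf H P₀ = Q) {p : ℕ} (hX0 : P₀.ord X = -1) (hY0 : P₀.ord Y = -(p : ℤ))
    (hXz : ∀ P : Place K F, rOf H P = Q → P ≠ P₀ → P.ord X = 0)
    (hYz : ∀ P : Place K F, rOf H P = Q → P ≠ P₀ → P.ord Y = 0) :
    ∃ (h1 : X⁻¹ ∈ Odisc H Q) (h2 : X ^ p * Y⁻¹ ∈ Odisc H Q),
      Q.ord (R.red ⟨X⁻¹, h1.1⟩) = 1 ∧ R.red ⟨X ^ p * Y⁻¹, h2.1⟩ ≠ 0 ∧
        Q.ord (R.red ⟨X ^ p * Y⁻¹, h2.1⟩) = 0 := by
  have hX0' : X ≠ 0 := coe_ne_zero_of_red_ne_zero (y := ⟨X, hX⟩) hXr
  have hY0' : Y ≠ 0 := coe_ne_zero_of_red_ne_zero (y := ⟨Y, hY⟩) hYr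
  have hXi : X⁻¹ ∈ R.Rw := inv_mem_Rw_of_red_ne_zero hX hXr
  have hYi : Y⁻¹ ∈ R.Rw := inv_mem_Rw_of_red_ne_zero hY hYr
  have hXir : R.red ⟨X⁻¹, hXi⟩ ≠ 0 := red_inv_ne_zero hX hXi hX0'
  have hYir : R.red ⟨Y⁻¹, hYi⟩ ≠ 0 := red_inv_ne_zero hY hYi hY0'
  have hU : X ^ p * Y⁻¹ ∈ R.Rw := mul_mem (pow_mem hX p) hYi
  have hUr : R.red ⟨X ^ p * Y⁻¹, hU⟩ ≠ 0 := by
    have : (⟨X ^ p * Y⁻¹, hU⟩ : R.Rw) = ⟨X, hX⟩ ^ p * ⟨Y⁻¹, hYi⟩ := rfl
    rw [this, map_mul, map_pow]
    exact mul_ne_zero (pow_ne_zero _ hXr) hYir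
  have hU0 : X ^ p * Y⁻¹ ≠ 0 := mul_ne_zero (pow_ne_zero _ hX0') (inv_ne_zero hY0')
  -- orders of `X⁻¹` and of `U` on the fibre
  have hordXi : ∀ P : Place K F, rOf H P = Q → 0 ≤ P.ord X⁻¹ := by
    intro P hP
    rw [Place.ord_inv]
    by_cases hPP : P = P₀
    · rw [hPP, hX0]; norm_num
    · rw [hXz P hP hPP]; norm_num
  have hordU : ∀ P : Place K F, rOf H P = Q → P.ord (X ^ p * Y⁻¹) = 0 := by
    intro P hP
    rw [P.ord_mul (pow_ne_zero _ hX0') (inv_ne_zero hY0'), Place.ord_inv, ord_pow_of_ne_zero P hX0']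
    by_cases hPP : P = P₀
    · rw [hPP, hX0, hY0]; ring
    · rw [hXz P hP hPP, hYz P hP hPP]; ring
  have h1 : X⁻¹ ∈ Odisc H Q :=
    ⟨hXi, fun P hP => (PlaceB.ord_nonneg_iff P (inv_ne_zero hX0')).mp (hordXi P hP)⟩
  have h2 : X ^ p * Y⁻¹ ∈ Odisc H Q :=
    ⟨hU, fun P hP => (PlaceB.ord_nonneg_iff P hU0).mp (hordU P hP).ge⟩
  refine ⟨h1, h2, ?_, hUr, ?_⟩
  · rw [ord_red_eq_single H (y := ⟨X⁻¹, hXi⟩) hXir hP₀ (fun P hP hne => by
      show P.ord X⁻¹ = 0
      rw [Place.ord_inv, hXz P hP hne, neg_zero])]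
    show P₀.ord X⁻¹ = 1
    rw [Place.ord_inv, hX0]; norm_num
  · exact ord_red_eq_zero_of_forall H (y := ⟨X ^ p * Y⁻¹, hU⟩) hUr hordU

/-! ### the generic-fibre cusp data and the main statement -/

/-- **generic-fibre cusp data**: `J` has poles of order `1, p` at `Pi, Pz`, `Jp` of order `p, 1`,
and neither has another pole. -/
structure GenCusp (Pi Pz : Place K F) (J Jp : F) (p : ℕ) : Prop where
  two_le : 2 ≤ p
  J_i : Pi.ord J = -1
  J_z : Pz.ord J = -(p : ℤ)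
  Jp_i : Pi.ord Jp = -(p : ℤ)
  Jp_z : Pz.ord Jp = -1
  J_reg : ∀ P : Place K F, P ≠ Pi → P ≠ Pz → 0 ≤ P.ord J
  Jp_reg : ∀ P : Place K F, P ≠ Pi → P ≠ Pz → 0 ≤ P.ord Jp

/-- on a fibre containing a pole, a function without cancellation has no zero. -/
theorem ord_eq_zero_of_no_cancel {H : LSpaceHyp R g c} {y : F} {Q : Place k Ft}
    (hnc : (∀ P : Place K F, rOf H P = Q → 0 ≤ P.ord y) ∨
      (∀ P : Place K F, rOf H P = Q → P.ord y ≤ 0))
    {P₀ : Place K F} (hP₀ : rOf H P₀ = Q) (hneg : P₀.ord y < 0)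
    {P : Place K F} (hP : rOf H P = Q) (hreg : 0 ≤ P.ord y) : P.ord y = 0 := by
  rcases hnc with h | h
  · exact absurd (h P₀ hP₀) (not_le.mpr hneg)
  · exact le_antisymm (h P hP) hreg

/-- **the cusp hypotheses of the reduced fibre** from the generic cusp data, degree preservation
at `J` and at `Jp`, and separation of the two cusps. -/
theorem cuspHyp_of_gen (x₀ : F) [IsGen K x₀] (xt₀ : Ft) [IsGen k xt₀] (H : LSpaceHyp R g c)
    {Pi Pz : Place K F} {J Jp : F} {p : ℕ} (C : GenCusp Pi Pz J Jp p)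
    (hJ : J ∈ R.Rw) (hJtr : Transcendental k (R.red ⟨J, hJ⟩))
    (hJfr : Module.finrank K⟮J⟯ F ≤ Module.finrank k⟮R.red ⟨J, hJ⟩⟯ Ft)
    (hJp : Jp ∈ R.Rw) (hJptr : Transcendental k (R.red ⟨Jp, hJp⟩))
    (hJpfr : Module.finrank K⟮Jp⟯ F ≤ Module.finrank k⟮R.red ⟨Jp, hJp⟩⟯ Ft)
    (hsep : rOf H Pi ≠ rOf H Pz) :
    CuspHyp H (rOf H Pi) (rOf H Pz) J Jp p := by
  have hJr : R.red ⟨J, hJ⟩ ≠ 0 := fun h => hJtr (h ▸ isAlgebraic_zero)
  have hJpr : R.red ⟨Jp, hJp⟩ ≠ 0 := fun h => hJptr (h ▸ isAlgebraic_zero)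
  have hp0 : (0 : ℤ) < p := by have := C.two_le; exact_mod_cast (by omega : 0 < p)
  have hncJ := no_cancel_of_finrank x₀ xt₀ H (y := ⟨J, hJ⟩) hJtr hJfr
  have hncJp := no_cancel_of_finrank x₀ xt₀ H (y := ⟨Jp, hJp⟩) hJptr hJpfr
  -- no zero or further pole of `J`, `Jp` in the two cuspidal discs
  have hJi : ∀ P : Place K F, rOf H P = rOf H Pi → P ≠ Pi → P.ord J = 0 := fun P hP hne =>
    ord_eq_zero_of_no_cancel (hncJ (rOf H Pi)) rfl (by rw [C.J_i]; norm_num) hP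
      (C.J_reg P hne (fun h => hsep (by rw [← hP, h])))
  have hJpi : ∀ P : Place K F, rOf H P = rOf H Pi → P ≠ Pi → P.ord Jp = 0 := fun P hP hne =>
    ord_eq_zero_of_no_cancel (hncJp (rOf H Pi)) rfl (by rw [C.Jp_i]; omega) hP
      (C.Jp_reg P hne (fun h => hsep (by rw [← hP, h])))
  have hJz : ∀ P : Place K F, rOf H P = rOf H Pz → P ≠ Pz → P.ord J = 0 := fun P hP hne =>
    ord_eq_zero_of_no_cancel (hncJ (rOf H Pz)) rfl (by rw [C.J_z]; omega) hP
      (C.J_reg P (fun h => hsep (by rw [← hP, h])) hne)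
  have hJpz : ∀ P : Place K F, rOf H P = rOf H Pz → P ≠ Pz → P.ord Jp = 0 := fun P hP hne =>
    ord_eq_zero_of_no_cancel (hncJp (rOf H Pz)) rfl (by rw [C.Jp_z]; norm_num) hP
      (C.Jp_reg P (fun h => hsep (by rw [← hP, h])) hne)
  obtain ⟨a1, a2, a3, a4, a5⟩ := side H hJ hJp hJr hJpr (rfl : rOf H Pi = rOf H Pi) C.J_i C.Jp_i
    hJi hJpi
  obtain ⟨b1, b2, b3, b4, b5⟩ := side H hJp hJ hJpr hJr (rfl : rOf H Pz = rOf H Pz) C.Jp_z C.J_z
    hJpz hJz
  refine
    { two_le := C.two_le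
      inf_param := a1
      inf_param_ord := a3
      inf_unit := a2
      inf_unit_ne := a4
      inf_unit_ord := a5
      zero_param := b1
      zero_param_ord := b3
      zero_unit := b2
      zero_unit_ne := b4
      zero_unit_ord := b5
      reg := ?_ }
  intro Q hQi hQz
  have hJ0 : J ≠ 0 := coe_ne_zero_of_red_ne_zero (y := ⟨J, hJ⟩) hJr
  refine ⟨hJ, fun P hP => (PlaceB.ord_nonneg_iff P hJ0).mp ?_⟩
  have hP' : rOf H P = Q := hP
  exact C.J_reg P (fun h => hQi (by rw [← hP', h])) (fun h => hQz (by rw [← hP', h]))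

end Frame

end Fermat.Agent.GZ.Mod.Inst
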