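/-
GATE-Z (S15) / [MOD-alpha], INSTANCE half, part 3 (helper16): the no-cancellation principle and the
level-`p` pole package for ANY place map with the fibre formula (`AlphaSpec.SpecMap`, helper48) —
no `LSpaceHyp`, so it applies at `ℓ' = 2, 3` as well.

`S : SpecMap R`, `hk : ∀ Q, Q.deg = 1`:

* `no_cancel_div_map` : for ANY map `r` between degree-one place sets, if the pole degree of `D`
  does not drop under push-forward, no fibre of `r` contains both a zero and a pole of `D`;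
* `no_cancel_spec` : degree preservation `[F : K(y)] ≤ [Ft : k(red y)]` ⟹ no residue disc of `S.r`
  contains both a zero and a pole of `y`;
* `ord_red_eq_single_spec`, `r_ne_of_sep` (separation by a function with divisor
  `m ((Pz) − (Pi))` and transcendental reduction);
* **`poleData_of_gen`** : generic pole data of `J`, `Jp` (orders `(−1, −p)`, `(−p, −1)` at
  `(cI, cZ)`, no other pole) + degree preservation at `J` and `Jp` + separation
  ⟹ `AlphaSpec.PoleData S cI cZ (S.r cI) (S.r cZ) J Jp p` (all 16 fields).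
-/
import Mathlib
import Fermat.Agent.GZ.Mod.AlphaSpec
import Fermat.Agent.GH.L3.Shift
import Fermat.Agent.GJ.S37.PoleDeg
import Fermat.Agent.GJ.S37.PlaceMap
import Fermat.Agent.GJ.FF.ValRing
import Fermat.Agent.GZ.Mod.Inst.NoCancel

set_option autoImplicit false
set_option linter.unusedSectionVars false

noncomputable section

open AlgebraicCurve IntermediateField

namespace Fermat.Agent.GZ.Mod.Inst

open Fermat.Agent.RRh45 Fermat.Agent.GJ.J1 Fermat.Agent.S24 Fermat.Agent.GH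
  Fermat.Agent.GZ.Mod.AlphaSpec

variable {K F k Ft : Type*} [Field K] [Field F] [Algebra K F] [Field k] [Field Ft] [Algebra k Ft]

/-! ### no cancellation for an arbitrary map of degree-one places -/

/-- **no cancellation** (divisor form, any map `r`): if the pole degree does not drop under
push-forward, no fibre of `r` contains both a zero and a pole. -/
theorem no_cancel_div_map (r : Place K F → Place k Ft) (hK : ∀ P : Place K F, P.deg = 1)
    (hk : ∀ Q : Place k Ft, Q.deg = 1) (Dy : Divisor K F)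
    (hdeg : Divisor.degree ((-Dy) ⊔ 0) ≤ Divisor.degree ((-(Finsupp.mapDomain r Dy)) ⊔ 0))
    (Q : Place k Ft) :
    (∀ P : Place K F, r P = Q → 0 ≤ Dy P) ∨ (∀ P : Place K F, r P = Q → Dy P ≤ 0) := by
  classical
  set N : Divisor K F := (-Dy) ⊔ 0 with hN
  set Z : Divisor K F := Dy ⊔ 0 with hZ
  have hN0 : 0 ≤ N := le_sup_right
  have hZ0 : 0 ≤ Z := le_sup_right
  have hNP : ∀ P, N P = max (-(Dy P)) 0 := fun P => by
    rw [hN, Finsupp.sup_apply, Finsupp.neg_apply]; rfl
  have hZP : ∀ P, Z P = max (Dy P) 0 := fun P => by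
    rw [hZ, Finsupp.sup_apply]; rfl
  have hsplit : Dy = Z - N := by
    ext P
    rw [Finsupp.sub_apply, hNP, hZP]
    rcases le_total (Dy P) 0 with h | h
    · rw [max_eq_right h, max_eq_left (by omega)]; omega
    · rw [max_eq_left h, max_eq_right (by omega)]; omega
  have hr : Finsupp.mapDomain r Dy = Finsupp.mapDomain r Z - Finsupp.mapDomain r N := by
    conv_lhs => rw [hsplit]
    rw [← Finsupp.mapDomain.addMonoidHom_apply, map_sub, Finsupp.mapDomain.addMonoidHom_apply,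
      Finsupp.mapDomain.addMonoidHom_apply]
  have hrN0 := mapDomain_nonneg_of_nonneg r hN0
  have hrZ0 := mapDomain_nonneg_of_nonneg r hZ0
  set E1 : Divisor k Ft := (-(Finsupp.mapDomain r Dy)) ⊔ 0 with hE1
  have hE1Q : ∀ Q, E1 Q = max (Finsupp.mapDomain r N Q - Finsupp.mapDomain r Z Q) 0 :=
    fun Q => by
      rw [hE1, Finsupp.sup_apply, Finsupp.neg_apply, hr, Finsupp.sub_apply, neg_sub]; rfl
  have hle : E1 ≤ Finsupp.mapDomain r N := fun Q => by
    rw [hE1Q]
    have h1 := hrN0 Q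
    have h2 := hrZ0 Q
    rw [Finsupp.zero_apply] at h1 h2
    exact max_le (by omega) h1
  have hE : Finsupp.mapDomain r N - E1 = 0 := by
    refine Fermat.Agent.GJ.S37.PlaceMap.eq_zero_of_nonneg_of_degree_eq_zero hk
      (sub_nonneg.mpr hle) ?_
    have h1 : Divisor.degree (Finsupp.mapDomain r N) = Divisor.degree N :=
      Fermat.Agent.GH.L3.degree_mapDomain hK hk r N
    have h2 := Fermat.Agent.GJ.S37.PlaceMap.degree_nonneg hk (sub_nonneg.mpr hle)
    rw [map_sub, h1] at h2 ⊢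
    omega
  have hEQ : Finsupp.mapDomain r N Q =
      max (Finsupp.mapDomain r N Q - Finsupp.mapDomain r Z Q) 0 := by
    have := congrArg (fun D : Divisor k Ft => D Q) hE
    simp only [Finsupp.sub_apply, Finsupp.zero_apply] at this
    rw [← hE1Q]; omega
  by_cases hn : Finsupp.mapDomain r N Q = 0
  · left
    intro P hP
    have h1 := eq_zero_of_mapDomain_eq_zero r hN0 hn hP
    rw [hNP] at h1
    have := le_max_left (-(Dy P)) 0
    omega
  · right
    intro P hP
    have h0 := hrN0 Q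
    have h0' := hrZ0 Q
    rw [Finsupp.zero_apply] at h0 h0'
    have hz : Finsupp.mapDomain r Z Q = 0 := by
      rcases le_total (Finsupp.mapDomain r N Q - Finsupp.mapDomain r Z Q) 0 with h | h
      · rw [max_eq_right h] at hEQ; exact absurd hEQ hn
      · rw [max_eq_left h] at hEQ; omega
    have h1 := eq_zero_of_mapDomain_eq_zero r hZ0 hz hP
    rw [hZP] at h1
    have := le_max_left (Dy P) 0
    omega

/-! ### the spec form -/

section Spec

variable {R : RedData K F k Ft} (S : SpecMap R) [HasPrincipalDivisors K F]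

/-- **no cancellation** from degree preservation at `y`, for a place map with the fibre formula. -/
theorem no_cancel_spec (hk : ∀ Q : Place k Ft, Q.deg = 1) (x₀ : F) [IsGen K x₀] (xt₀ : Ft)
    [IsGen k xt₀] {y : F} (hy : y ∈ R.Rw) (htr : Transcendental k (R.red ⟨y, hy⟩))
    (hfr : Module.finrank K⟮y⟯ F ≤ Module.finrank k⟮R.red ⟨y, hy⟩⟯ Ft) (Q : Place k Ft) :
    (∀ P : Place K F, S.r P = Q → 0 ≤ P.ord y) ∨ (∀ P : Place K F, S.r P = Q → P.ord y ≤ 0) := by
  have hred : R.red ⟨y, hy⟩ ≠ 0 := fun h => htr (h ▸ isAlgebraic_zero)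
  have hy0 : y ≠ 0 := Fermat.Agent.GH.Disc.coe_ne_zero_of_red_ne_zero (y := ⟨y, hy⟩) hred
  obtain ⟨Dy, hDy, -⟩ := HasPrincipalDivisors.exists_divisor (K := K) y hy0
  have hDt : ∀ Q : Place k Ft, Finsupp.mapDomain S.r Dy Q = Q.ord (R.red ⟨y, hy⟩) :=
    S.fibre ⟨y, hy⟩ hred Dy hDy
  have hxtr : Transcendental K y :=
    Fermat.Agent.GJ.S37.ResDeg.RedData.transcendental_of_isGaussChart R ⟨hy, htr⟩
  have h1 := Fermat.Agent.GJ.S37PoleDeg.degree_neg_sup_zero_eq_finrank x₀ hxtr hDy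
  have h2 := Fermat.Agent.GJ.S37PoleDeg.degree_neg_sup_zero_eq_finrank xt₀ htr hDt
  have hdeg : Divisor.degree ((-Dy) ⊔ 0) ≤
      Divisor.degree ((-(Finsupp.mapDomain S.r Dy)) ⊔ 0) := by
    rw [h1, h2]; exact_mod_cast hfr
  rcases no_cancel_div_map S.r S.degF hk Dy hdeg Q with h | h
  · exact Or.inl fun P hP => by rw [← hDy P]; exact h P hP
  · exact Or.inr fun P hP => by rw [← hDy P]; exact h P hP

/-- `ord_Q (red y) = ord_{P₀} y` if `P₀ ↦ Q` carries the only zero / pole of `y` over `Q`. -/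
theorem ord_red_eq_single_spec {y : F} (hy : y ∈ R.Rw) (hred : R.red ⟨y, hy⟩ ≠ 0)
    {Q : Place k Ft} {P₀ : Place K F} (hP₀ : S.r P₀ = Q)
    (h : ∀ P : Place K F, S.r P = Q → P ≠ P₀ → P.ord y = 0) :
    Q.ord (R.red ⟨y, hy⟩) = P₀.ord y := by
  classical
  have hy0 : y ≠ 0 := Fermat.Agent.GH.Disc.coe_ne_zero_of_red_ne_zero (y := ⟨y, hy⟩) hred
  obtain ⟨Dy, hDy, -⟩ := HasPrincipalDivisors.exists_divisor (K := K) y hy0
  rw [S.ord_red_eq_sum hy hred hDy Q]
  by_cases hmem : P₀ ∈ Dy.support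
  · rw [Finset.sum_eq_single_of_mem P₀ (Finset.mem_filter.mpr ⟨hmem, hP₀⟩)]
    intro P hP hne
    exact h P (Finset.mem_filter.mp hP).2 hne
  · have h0 : P₀.ord y = 0 := by
      rw [← hDy P₀]; exact Finsupp.notMem_support_iff.mp hmem
    rw [h0]
    refine Finset.sum_eq_zero fun P hP => ?_
    by_cases hPP : P = P₀
    · rw [hPP, h0]
    · exact h P (Finset.mem_filter.mp hP).2 hPP

/-- a function `G` whose only zero is `Pz` and only pole is `Pi` (orders `m`, `-m`), with
transcendental reduction, separates the reductions of `Pi` and `Pz`. -/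
theorem r_ne_of_sep (xt₀ : Ft) [IsGen k xt₀] {G : F} (hG : G ∈ R.Rw)
    (htr : Transcendental k (R.red ⟨G, hG⟩)) {Pi Pz : Place K F} (hne : Pi ≠ Pz) {m : ℤ}
    (hGi : Pi.ord G = -m) (hGz : Pz.ord G = m)
    (hGe : ∀ P : Place K F, P ≠ Pi → P ≠ Pz → P.ord G = 0) : S.r Pi ≠ S.r Pz := by
  classical
  intro heq
  have hy : R.red ⟨G, hG⟩ ≠ 0 := fun h => htr (h ▸ isAlgebraic_zero)
  obtain ⟨Q, hQ⟩ := Fermat.Agent.GJ.FF.exists_place_ord_neg (K := k) xt₀ htr
  have hDy : ∀ P : Place K F,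
      (Finsupp.single Pz m - Finsupp.single Pi m : Divisor K F) P = P.ord G := by
    intro P
    rw [Finsupp.sub_apply, Finsupp.single_apply, Finsupp.single_apply]
    by_cases h1 : P = Pi
    · subst h1
      rw [if_neg (Ne.symm hne), if_pos rfl, hGi]; ring
    · by_cases h2 : P = Pz
      · subst h2
        rw [if_pos rfl, if_neg (Ne.symm h1), hGz]; ring
      · rw [if_neg (Ne.symm h2), if_neg (Ne.symm h1), hGe P h1 h2]; ring
  have h1 := S.fibre ⟨G, hG⟩ hy _ hDy Q
  rw [← Finsupp.mapDomain.addMonoidHom_apply, map_sub, Finsupp.mapDomain.addMonoidHom_apply,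
    Finsupp.mapDomain.addMonoidHom_apply, Finsupp.mapDomain_single, Finsupp.mapDomain_single,
    heq, sub_self, Finsupp.zero_apply] at h1
  rw [← h1] at hQ
  exact lt_irrefl _ hQ

/-- on a fibre containing a pole, a function without cancellation has no zero. -/
theorem ord_eq_zero_of_no_cancel_spec {y : F} {Q : Place k Ft}
    (hnc : (∀ P : Place K F, S.r P = Q → 0 ≤ P.ord y) ∨
      (∀ P : Place K F, S.r P = Q → P.ord y ≤ 0))
    {P₀ : Place K F} (hP₀ : S.r P₀ = Q) (hneg : P₀.ord y < 0)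
    {P : Place K F} (hP : S.r P = Q) (hreg : 0 ≤ P.ord y) : P.ord y = 0 := by
  rcases hnc with h | h
  · exact absurd (h P₀ hP₀) (not_le.mpr hneg)
  · exact le_antisymm (h P hP) hreg

/-- **the level-`p` pole package** for any place map with the fibre formula, from the generic pole
data, degree preservation at `J` and at `Jp`, and separation of the two cusps. -/
theorem poleData_of_gen (hk : ∀ Q : Place k Ft, Q.deg = 1) (x₀ : F) [IsGen K x₀] (xt₀ : Ft)
    [IsGen k xt₀] {cI cZ : Place K F} {J Jp : F} {p : ℕ} (two_le : 2 ≤ p)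
    (J_poles : ∀ P : Place K F, P.ord J < 0 → P = cI ∨ P = cZ)
    (Jp_poles : ∀ P : Place K F, P.ord Jp < 0 → P = cI ∨ P = cZ)
    (J_cI : cI.ord J = -1) (J_cZ : cZ.ord J = -(p : ℤ))
    (Jp_cI : cI.ord Jp = -(p : ℤ)) (Jp_cZ : cZ.ord Jp = -1)
    (hJ : J ∈ R.Rw) (hJtr : Transcendental k (R.red ⟨J, hJ⟩))
    (hJfr : Module.finrank K⟮J⟯ F ≤ Module.finrank k⟮R.red ⟨J, hJ⟩⟯ Ft)
    (hJp : Jp ∈ R.Rw) (hJptr : Transcendental k (R.red ⟨Jp, hJp⟩))
    (hJpfr : Module.finrank K⟮Jp⟯ F ≤ Module.finrank k⟮R.red ⟨Jp, hJp⟩⟯ Ft)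
    (hsep : S.r cI ≠ S.r cZ) :
    PoleData S cI cZ (S.r cI) (S.r cZ) J Jp p := by
  have hJr : R.red ⟨J, hJ⟩ ≠ 0 := fun h => hJtr (h ▸ isAlgebraic_zero)
  have hJpr : R.red ⟨Jp, hJp⟩ ≠ 0 := fun h => hJptr (h ▸ isAlgebraic_zero)
  have hp0 : (0 : ℤ) < p := by exact_mod_cast (by omega : 0 < p)
  have hncJ := no_cancel_spec S hk x₀ xt₀ hJ hJtr hJfr
  have hncJp := no_cancel_spec S hk x₀ xt₀ hJp hJptr hJpfr
  have J_reg : ∀ P : Place K F, P ≠ cI → P ≠ cZ → 0 ≤ P.ord J := fun P h1 h2 => by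
    by_contra hlt
    rcases J_poles P (not_le.mp hlt) with h | h
    · exact h1 h
    · exact h2 h
  have Jp_reg : ∀ P : Place K F, P ≠ cI → P ≠ cZ → 0 ≤ P.ord Jp := fun P h1 h2 => by
    by_contra hlt
    rcases Jp_poles P (not_le.mp hlt) with h | h
    · exact h1 h
    · exact h2 h
  have hJi : ∀ P : Place K F, S.r P = S.r cI → P ≠ cI → P.ord J = 0 := fun P hP hne =>
    ord_eq_zero_of_no_cancel_spec S (hncJ (S.r cI)) rfl (by rw [J_cI]; norm_num) hP
      (J_reg P hne (fun h => hsep (by rw [← hP, h])))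
  have hJpi : ∀ P : Place K F, S.r P = S.r cI → P ≠ cI → P.ord Jp = 0 := fun P hP hne =>
    ord_eq_zero_of_no_cancel_spec S (hncJp (S.r cI)) rfl (by rw [Jp_cI]; omega) hP
      (Jp_reg P hne (fun h => hsep (by rw [← hP, h])))
  have hJz : ∀ P : Place K F, S.r P = S.r cZ → P ≠ cZ → P.ord J = 0 := fun P hP hne =>
    ord_eq_zero_of_no_cancel_spec S (hncJ (S.r cZ)) rfl (by rw [J_cZ]; omega) hP
      (J_reg P (fun h => hsep (by rw [← hP, h])) hne)
  have hJpz : ∀ P : Place K F, S.r P = S.r cZ → P ≠ cZ → P.ord Jp = 0 := fun P hP hne =>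
    ord_eq_zero_of_no_cancel_spec S (hncJp (S.r cZ)) rfl (by rw [Jp_cZ]; norm_num) hP
      (Jp_reg P (fun h => hsep (by rw [← hP, h])) hne)
  exact
    { two_le := two_le
      Q_ne := hsep
      J_mem := hJ
      J_red := hJr
      Jp_mem := hJp
      Jp_red := hJpr
      J_poles := J_poles
      Jp_poles := Jp_poles
      J_cI := J_cI
      J_cZ := J_cZ
      Jp_cI := Jp_cI
      Jp_cZ := Jp_cZ
      J_Qi := by rw [ord_red_eq_single_spec S hJ hJr rfl hJi, J_cI]
      J_Qz := by rw [ord_red_eq_single_spec S hJ hJr rfl hJz, J_cZ]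
      Jp_Qi := by rw [ord_red_eq_single_spec S hJp hJpr rfl hJpi, Jp_cI]
      Jp_Qz := by rw [ord_red_eq_single_spec S hJp hJpr rfl hJpz, Jp_cZ] }

end Spec

end Fermat.Agent.GZ.Mod.Inst
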