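/-
GATE-Z (S15) / [MOD-alpha], INSTANCE half, part 4 (helper16): **the level-`p` pole package**.

`p` prime, `A` a valuation subring of `ℚ̄` over a prime `ℓ' ≠ p` (INCLUDING `ℓ' = 2, 3`),
`J = jF p`, `Jp = jdF p p`, `cI = cuspInf p`, `cZ = cuspZero hp` (helper24, `GZ/Unit/Cusps`).

* generic fibre: `ord_cuspInf_jdF`, `ord_cuspZero_jdF`, `eq_cusp_of_ord_jdF_neg`;
* `poleData_bar` : for EVERY `S : SpecMap (redDataBar p A)`:
  `PoleData S cI cZ (S.r cI) (S.r cZ) J Jp p` (helper48's `AlphaSpec.PoleData`, all 16 fields);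
* **`poleData_full`** : the same for EVERY `S : SpecMap (redDataFull p A hle)` (the frame of the
  prelude's `placeReductionModL`, via `GJ/S37/BarToFull.transfer`).

Inputs: degree preservation at `j` (`GJ/J1/Val/DegJ.finrank_jF_le`) and at `j_p` (`WRed`), the eta
quotient `Δ(Q)/Δ(Q^p)` as separator (`GL/Eta/Gauss`, `GZ/Unit/Cusps.ord_gEta`), and the
no-cancellation principle (`SpecCancel.poleData_of_gen`).
-/
import Mathlib
import Fermat.Agent.GZ.Mod.Inst.SpecCancel
import Fermat.Agent.GZ.Mod.Inst.WRed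
import Fermat.Agent.GZ.Unit.Cusps
import Fermat.Agent.GJ.S37.BarToFull
import Fermat.Agent.GL.Eta.Gauss
import Fermat.Agent.S24.DegOne

set_option autoImplicit false
set_option linter.unusedSectionVars false
set_option synthInstance.maxHeartbeats 400000
set_option maxHeartbeats 1000000

noncomputable section

open AlgebraicCurve IntermediateField ModularCurve

namespace Fermat.Agent.GZ.Mod.Inst

open Fermat.Agent.RRh45 Fermat.Agent.GJ.J1 Fermat.Agent.GJ.J1.Val Fermat.Agent.S24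
  Fermat.Agent.S24.Degree Fermat.Agent.S28 Fermat.Agent.GK.AL Fermat.Agent.GL.Eta
  Fermat.Agent.GR.W.RatRep Fermat.Agent.GZ.Unit Fermat.Agent.GZ.Mod.AlphaSpec
  Fermat.Agent.GJ.S37Bridge Fermat.Agent.GJ.S37BarToFull

variable {p : ℕ} [NeZero p]

/-! ### the generic fibre: `j_p` at the two cusps -/

/-- `W_p j_p = j` -/
theorem wAut_jdF (hp : p.Prime) :
    wAut (exactDvd_self hp) (jdF p p dvd_rfl) = jF p := by
  have h := wAut_jF' (exactDvd_self hp)
  rw [← h, wAut_wAut]

/-- `ord_∞ j_p = -p` -/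
theorem ord_cuspInf_jdF : (cuspInf p).ord (jdF p p dvd_rfl) = -(p : ℤ) := by
  rw [ord_cuspInf, coe_jdF', order_jS]

/-- `ord_0 j_p = -1` -/
theorem ord_cuspZero_jdF (hp : p.Prime) : (cuspZero hp).ord (jdF p p dvd_rfl) = -1 := by
  rw [ord_cuspZero, wAut_jdF hp, ord_cuspInf_jF]

/-- `ord_P (W f) = ord_{W P} f` -/
theorem ord_wAut (hp : p.Prime) (P : Place Kbar (FN p)) (f : FN p) :
    P.ord (wAut (exactDvd_self hp) f) = (wAut (exactDvd_self hp) • P).ord f := by
  have h := Place.ord_smul (wAut (exactDvd_self hp)) P (wAut (exactDvd_self hp) f)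
  rw [wAut_wAut] at h
  exact h.symm

/-- `W • W • P = P` -/
theorem wAut_smul_smul (hp : p.Prime) (P : Place Kbar (FN p)) :
    wAut (exactDvd_self hp) • wAut (exactDvd_self hp) • P = P := by
  rw [smul_smul]
  have : wAut (exactDvd_self hp) * wAut (exactDvd_self hp) = 1 :=
    AlgEquiv.ext fun f => by
      rw [AlgEquiv.mul_apply, AlgEquiv.one_apply]
      exact wAut_wAut (exactDvd_self hp) f
  rw [this, one_smul]

/-- **a pole of `j_p` is one of the two cusps** -/
theorem eq_cusp_of_ord_jdF_neg (hp : p.Prime) (P : Place Kbar (FN p))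
    (hP : P.ord (jdF p p dvd_rfl) < 0) : P = cuspInf p ∨ P = cuspZero hp := by
  rw [← wAut_jF' (exactDvd_self hp), ord_wAut hp] at hP
  rcases eq_cusp_of_ord_jF_neg hp _ hP with h | h
  · right
    show P = wAut (exactDvd_self hp) • cuspInf p
    rw [← h, wAut_smul_smul hp P]
  · left
    rw [← wAut_smul_smul hp P, h]
    exact wAut_smul_smul hp (cuspInf p)

/-! ### the pole package over `redDataBar p A` -/

section Bar

variable (hp : p.Prime) {ℓ' : ℕ} [Fact ℓ'.Prime] (hℓp : ¬ ℓ' ∣ p) (A : ValuationSubring Kbar)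
  (hA : A.LiesOverPrime ℓ')

local notation "𝕜" => IsLocalRing.ResidueField A

include hp hℓp hA

/-- **the level-`p` pole package** for every place map with the fibre formula on J1's datum
`redDataBar p A`, `A` over `ℓ' ≠ p`. -/
theorem poleData_bar (S : SpecMap (redDataBar p A)) :
    PoleData S (cuspInf p) (cuspZero hp) (S.r (cuspInf p)) (S.r (cuspZero hp)) (jF p)
      (jdF p p dvd_rfl) p := by
  have hE := exactDvd_self hp
  have hfd := finiteDimensional_jF p
  have hgenK : IsGen Kbar (jF p) := Fermat.Agent.S24_helper62.isGen_jF p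
  -- the chart `j`
  have hs := isGaussChart_jF_1 p A
  have hJfr := finrank_jF_le p A hℓp hA hs.1
  obtain ⟨hfdk, -⟩ := Fermat.Agent.GJ.S37.ResDeg.RedData.finrank_red_le (redDataBar p A) hs.1 hs.2
  have hgenk : IsGen 𝕜 ((redDataBar p A).red ⟨jF p, hs.1⟩) := ⟨hs.2, hfdk⟩
  have hk : ∀ Q : Place 𝕜 (FresBar p A), Q.deg = 1 := fun Q =>
    PlaceB.deg_eq_one Q ((redDataBar p A).red ⟨jF p, hs.1⟩)
  -- the chart `j_p`
  have hJp : jdF p p dvd_rfl ∈ (redDataBar p A).Rw := by
    rw [← gen_eq_jdF (N := p) ⟨p, dvd_rfl⟩]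
    exact gen_mem_Rw1 p A _
  have hJptr : Transcendental 𝕜 ((redDataBar p A).red ⟨jdF p p dvd_rfl, hJp⟩) := by
    apply Fres.transcendental_of_coe
    have h1 : (⟨jdF p p dvd_rfl, hJp⟩ : (redDataBar p A).Rw) =
        ⟨gen p ⟨p, dvd_rfl⟩, gen_mem_Rw1 p A _⟩ :=
      Subtype.ext (gen_eq_jdF (N := p) ⟨p, dvd_rfl⟩).symm
    rw [h1, coe_red1_gen]
    exact transcendental_qExpand_jqModC 𝕜 _
  have hJpfr : Module.finrank Kbar⟮jdF p p dvd_rfl⟯ (FN p) ≤
      Module.finrank 𝕜⟮(redDataBar p A).red ⟨jdF p p dvd_rfl, hJp⟩⟯ (FresBar p A) := by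
    have hW : wAut hE (jF p) = jdF p p dvd_rfl := wAut_jF' hE
    have hm : wAut hE (jF p) ∈ (redDataBar p A).Rw := by rw [hW]; exact hJp
    have h1 := finrank_wAut_jF_le p A hE hℓp hA hm
    have h2 : (⟨wAut hE (jF p), hm⟩ : (redDataBar p A).Rw) = ⟨jdF p p dvd_rfl, hJp⟩ :=
      Subtype.ext hW
    rw [h2] at h1
    rw [hW] at h1
    exact h1
  -- the separator `g = Δ(Q)/Δ(Q^p)`
  have hG : gEta p ∈ (redDataBar p A).Rw := etaQ_mem_Rw1 p A p dvd_rfl
  have hGtr : Transcendental 𝕜 ((redDataBar p A).red ⟨gEta p, hG⟩) := by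
    apply Fres.transcendental_of_coe
    rw [coe_red1_etaQ]
    apply transcendental_of_order_neg
    rw [(hasLead_uInvS 𝕜 p).order_eq one_ne_zero]
    have : (2 : ℤ) ≤ p := by exact_mod_cast hp.two_le
    omega
  have hsep : S.r (cuspInf p) ≠ S.r (cuspZero hp) := by
    refine r_ne_of_sep S ((redDataBar p A).red ⟨jF p, hs.1⟩) hG hGtr
      (cuspZero_ne_cuspInf hp).symm (m := (p : ℤ) - 1) ?_ (ord_cuspZero_gEta hp) ?_
    · rw [ord_cuspInf_gEta]; ring
    · intro P h1 h2
      classical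
      rw [ord_gEta hp P, Finsupp.sub_apply, Finsupp.single_apply, Finsupp.single_apply,
        if_neg (Ne.symm h2), if_neg (Ne.symm h1)]
      ring
  exact poleData_of_gen S hk (jF p) ((redDataBar p A).red ⟨jF p, hs.1⟩) hp.two_le
    (eq_cusp_of_ord_jF_neg hp) (eq_cusp_of_ord_jdF_neg hp) ord_cuspInf_jF (ord_cuspZero_jF hp)
    ord_cuspInf_jdF (ord_cuspZero_jdF hp) hs.1 hs.2 hJfr hJp hJptr hJpfr hsep

/-- **the level-`p` pole package on the prelude's frame** `redDataFull p A hle` (the datum of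
`placeReductionModL`), for EVERY place map with the fibre formula; `ℓ' = 2, 3` allowed. -/
theorem poleData_full
    (S : SpecMap (redDataFull p A (Res.FresBar_le_fullC p A hℓp hA))) :
    PoleData S (cuspInf p) (cuspZero hp) (S.r (cuspInf p)) (S.r (cuspZero hp)) (jF p)
      (jdF p p dvd_rfl) p := by
  have key := transfer (N := p) (A := A)
    (fun E R => ∀ S : SpecMap R,
      PoleData S (cuspInf p) (cuspZero hp) (S.r (cuspInf p)) (S.r (cuspZero hp)) (jF p)
        (jdF p p dvd_rfl) p)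
    (Res.FresBar_eq_fullC p A hℓp hA) (Res.FresBar_le_fullC p A hℓp hA)
    (fun S => poleData_bar hp hℓp A hA S)
  exact key S

end Bar

end Fermat.Agent.GZ.Mod.Inst
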