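/-
GATE-Z (S15) / [MOD-alpha], INSTANCE half, part 2 (helper16): the Atkin–Lehner involution on the
special fibre at a prime of GOOD reduction, and degree preservation at the second chart `j_q`.

Generic (`R : RedData K F k Ft`, `e : F ≃ₐ[K] F`):

* `map_mem_Rw_of_huniq` : if `s` is a Gauss chart for `R` and for `R ∘ e`, and `Rw` is integral over
  `Rw ∩ K(s)` (`IntRed.Huniq`, i.e. `w` is the only extension of the Gauss valuation of `K(s)`),
  then `e` maps `Rw` into `Rw`;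
* `redAlgEquiv R e hiff : Ft ≃ₐ[k] Ft` : the automorphism of the special fibre induced by an
  automorphism `e` of the generic fibre preserving `Rw`; `redAlgEquiv_red : ē (red x) = red (e x)`;
* `finrank_le_map` : degree preservation at `t` gives degree preservation at `e t`.

Modular (`q ∥ N`, `A` over `ℓ ∤ N`):

* **`wAut_mem_RwBar_iff`** : `W_q f ∈ RwBar N A ↔ f ∈ RwBar N A`  (the two Gauss valuations agree);
* **`finrank_jQ_le`** : `[F_N : ℚ̄(j_q)] ≤ [FresBar N A : k(j_q~)]`.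
-/
import Mathlib
import Fermat.Agent.GK.AL.SecondValGal
import Fermat.Agent.GJ.J1.HuniqDegree
import Fermat.Agent.GJ.J1.Val.Uniq
import Fermat.Agent.GJ.J1.Val.DegJ
import Fermat.Agent.GK.Flat.SymDegree

set_option autoImplicit false
set_option linter.unusedSectionVars false

noncomputable section

open IntermediateField Polynomial

namespace Fermat.Agent.GZ.Mod.Inst

open Fermat.Agent.GJ.J1 Fermat.Agent.GK.AL

/-! ### Generic -/

section Generic

variable {K F k Ft : Type*} [Field K] [Field F] [Algebra K F] [Field k] [Field Ft] [Algebra k Ft]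
variable (R : RedData K F k Ft)

/-- a unit of `Rw`: nonzero reduction gives an inverse in `Rw`. -/
theorem inv_mem_Rw_of_red_ne_zero' {e : F} (he : e ∈ R.Rw) (hred : R.red ⟨e, he⟩ ≠ 0) :
    e⁻¹ ∈ R.Rw := by
  have hnm : (⟨e, he⟩ : R.Rw) ∉ IsLocalRing.maximalIdeal R.Rw := fun h =>
    hred ((R.red_eq_zero_iff _).mpr h)
  rw [IsLocalRing.mem_maximalIdeal, mem_nonunits_iff, not_not] at hnm
  obtain ⟨v, hv⟩ := hnm.exists_right_inv
  have h2 : e * (v : F) = 1 := congrArg Subtype.val hv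
  rw [← eq_inv_of_mul_eq_one_right h2]; exact v.2

variable {R}

/-- elements of `K(s) ∩ Rw` lie in the transported valuation ring, if `s` is a Gauss chart for
both. -/
theorem mem_comap_of_mem_adjoin (e : F ≃ₐ[K] F) {s : F} (hs : R.IsGaussChart s)
    (hs' : (R.comapAlgEquiv e).IsGaussChart s) (c : K⟮s⟯) (hc : (c : F) ∈ R.Rw) :
    (c : F) ∈ (R.comapAlgEquiv e).Rw := by
  obtain ⟨p, q, hq, hcq⟩ := ValUniq.exists_frac hs c hc
  set R' := R.comapAlgEquiv e with hR'
  have hP : aeval s (p.map R'.A.subtype) ∈ R'.Rw := IntRed.aeval_mem_Rw (R := R') hs'.1 p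
  have hQ : aeval s (q.map R'.A.subtype) ∈ R'.Rw := IntRed.aeval_mem_Rw (R := R') hs'.1 q
  have hQr : R'.red ⟨aeval s (q.map R'.A.subtype), hQ⟩ ≠ 0 := by
    have h1 := IntRed.red_evalA_ne_zero (R := R') hs' q hq
    have h2 : (IntRed.evalA (R := R') hs'.1 q : R'.Rw) = ⟨aeval s (q.map R'.A.subtype), hQ⟩ :=
      Subtype.ext (IntRed.coe_evalA (R := R') hs'.1 q)
    rwa [h2] at h1
  have hQi := inv_mem_Rw_of_red_ne_zero' R' hQ hQr
  have hQ0 : aeval s (q.map R'.A.subtype) ≠ 0 := by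
    intro h0
    apply hQr
    have : (⟨aeval s (q.map R'.A.subtype), hQ⟩ : R'.Rw) = 0 := Subtype.ext h0
    rw [this, map_zero]
  have hc' : (c : F) = aeval s (p.map R'.A.subtype) * (aeval s (q.map R'.A.subtype))⁻¹ := by
    have hcq' : (c : F) * aeval s (q.map R'.A.subtype) = aeval s (p.map R'.A.subtype) := hcq
    rw [← hcq', mul_assoc, mul_inv_cancel₀ hQ0, mul_one]
  rw [hc']
  exact mul_mem hP hQi

/-- **uniqueness of the Gauss extension**: if `Rw` is integral over `Rw ∩ K(s)` and `s` is a Gauss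
chart for `R` and for `R ∘ e`, then `e` maps `Rw` into `Rw`. -/
theorem map_mem_Rw_of_huniq (e : F ≃ₐ[K] F) {s : F} (hs : R.IsGaussChart s)
    (hs' : (R.comapAlgEquiv e).IsGaussChart s) (hu : IntRed.Huniq R K⟮s⟯) (x : F)
    (hx : x ∈ R.Rw) : e x ∈ R.Rw := by
  rw [← mem_comapAlgEquiv_Rw]
  set S := (R.comapAlgEquiv e).Rw with hS
  obtain ⟨P, hPm, hPx⟩ := hu x hx
  let φ : ↥(R.Rw.comap (algebraMap K⟮s⟯ F) : ValuationSubring K⟮s⟯) →+* S :=
    { toFun := fun a => ⟨((a : K⟮s⟯) : F), mem_comap_of_mem_adjoin e hs hs' a.1 a.2⟩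
      map_one' := rfl
      map_mul' := fun _ _ => rfl
      map_zero' := rfl
      map_add' := fun _ _ => rfl }
  have hint : IsIntegral S x := by
    refine ⟨P.map φ, hPm.map φ, ?_⟩
    rw [eval₂_map]
    exact hPx
  obtain ⟨y, hy⟩ := IsIntegrallyClosed.isIntegral_iff.mp hint
  rw [← hy]
  exact y.2

variable (R)

/-- the automorphism `e` restricted to `Rw`. -/
def rwEnd (e : F ≃ₐ[K] F) (hiff : ∀ x : F, e x ∈ R.Rw ↔ x ∈ R.Rw) : R.Rw →+* R.Rw where
  toFun x := ⟨e x, (hiff x).mpr x.2⟩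
  map_one' := Subtype.ext (map_one e)
  map_mul' x y := Subtype.ext (map_mul e (x : F) (y : F))
  map_zero' := Subtype.ext (map_zero e)
  map_add' x y := Subtype.ext (map_add e (x : F) (y : F))

theorem red_rwEnd_eq_zero (e : F ≃ₐ[K] F) (hiff : ∀ x : F, e x ∈ R.Rw ↔ x ∈ R.Rw) (x : R.Rw)
    (hx : R.red x = 0) : R.red (rwEnd R e hiff x) = 0 := by
  rw [R.red_eq_zero_iff, IsLocalRing.mem_maximalIdeal, mem_nonunits_iff] at hx ⊢
  intro hu
  apply hx
  obtain ⟨v, hv⟩ := hu.exists_right_inv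
  have h1 : e (x : F) * (v : F) = 1 := congrArg Subtype.val hv
  have hmem : e.symm (v : F) ∈ R.Rw := (hiff _).mp (by rw [e.apply_symm_apply]; exact v.2)
  refine isUnit_iff_exists_inv.mpr ⟨⟨e.symm (v : F), hmem⟩, Subtype.ext ?_⟩
  show (x : F) * e.symm (v : F) = 1
  apply e.injective
  rw [map_mul, e.apply_symm_apply, map_one]
  exact h1

/-- the ring endomorphism of the special fibre induced by `e`. -/
def redRingHom (e : F ≃ₐ[K] F) (hiff : ∀ x : F, e x ∈ R.Rw ↔ x ∈ R.Rw) : Ft →+* Ft :=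
  RingHom.liftOfSurjective R.red R.red_surjective
    ⟨R.red.comp (rwEnd R e hiff), fun x hx => by
      rw [RingHom.mem_ker] at hx ⊢
      exact red_rwEnd_eq_zero R e hiff x hx⟩

theorem redRingHom_red (e : F ≃ₐ[K] F) (hiff : ∀ x : F, e x ∈ R.Rw ↔ x ∈ R.Rw) (x : R.Rw) :
    redRingHom R e hiff (R.red x) = R.red (rwEnd R e hiff x) :=
  RingHom.liftOfRightInverse_comp_apply _ _ _ _ x

/-- the `k`-algebra endomorphism of the special fibre induced by `e`. -/
def redAlgHom (e : F ≃ₐ[K] F) (hiff : ∀ x : F, e x ∈ R.Rw ↔ x ∈ R.Rw) : Ft →ₐ[k] Ft :=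
  { redRingHom R e hiff with
    commutes' := fun c => by
      obtain ⟨a, rfl⟩ := R.res_surjective c
      show redRingHom R e hiff (algebraMap k Ft (R.res a)) = algebraMap k Ft (R.res a)
      rw [← R.red_algebraMap a, redRingHom_red]
      congr 1
      exact Subtype.ext (e.commutes (a : K)) }

theorem redAlgHom_red (e : F ≃ₐ[K] F) (hiff : ∀ x : F, e x ∈ R.Rw ↔ x ∈ R.Rw) (x : R.Rw) :
    redAlgHom R e hiff (R.red x) = R.red (rwEnd R e hiff x) :=
  redRingHom_red R e hiff x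

theorem symm_iff (e : F ≃ₐ[K] F) (hiff : ∀ x : F, e x ∈ R.Rw ↔ x ∈ R.Rw) (x : F) :
    e.symm x ∈ R.Rw ↔ x ∈ R.Rw := by
  rw [← hiff (e.symm x), e.apply_symm_apply]

/-- **the automorphism of the special fibre induced by `e`.** -/
def redAlgEquiv (e : F ≃ₐ[K] F) (hiff : ∀ x : F, e x ∈ R.Rw ↔ x ∈ R.Rw) : Ft ≃ₐ[k] Ft :=
  AlgEquiv.ofAlgHom (redAlgHom R e hiff) (redAlgHom R e.symm (symm_iff R e hiff))
    (by
      ext y
      obtain ⟨x, rfl⟩ := R.red_surjective y
      rw [AlgHom.comp_apply, redAlgHom_red, redAlgHom_red, AlgHom.id_apply]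
      congr 1
      exact Subtype.ext (e.apply_symm_apply (x : F)))
    (by
      ext y
      obtain ⟨x, rfl⟩ := R.red_surjective y
      rw [AlgHom.comp_apply, redAlgHom_red, redAlgHom_red, AlgHom.id_apply]
      congr 1
      exact Subtype.ext (e.symm_apply_apply (x : F)))

theorem redAlgEquiv_red (e : F ≃ₐ[K] F) (hiff : ∀ x : F, e x ∈ R.Rw ↔ x ∈ R.Rw) {t : F}
    (ht : t ∈ R.Rw) :
    redAlgEquiv R e hiff (R.red ⟨t, ht⟩) = R.red ⟨e t, (hiff t).mpr ht⟩ :=
  redAlgHom_red R e hiff ⟨t, ht⟩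

/-- **degree preservation is transported by an automorphism preserving `Rw`.** -/
theorem finrank_le_map (e : F ≃ₐ[K] F) (hiff : ∀ x : F, e x ∈ R.Rw ↔ x ∈ R.Rw) {t : F}
    (ht : t ∈ R.Rw)
    (hdeg : Module.finrank K⟮t⟯ F ≤ Module.finrank k⟮R.red ⟨t, ht⟩⟯ Ft)
    (ht' : e t ∈ R.Rw) :
    Module.finrank K⟮e t⟯ F ≤ Module.finrank k⟮R.red ⟨e t, ht'⟩⟯ Ft := by
  have h1 : R.red ⟨e t, ht'⟩ = redAlgEquiv R e hiff (R.red ⟨t, ht⟩) :=
    (redAlgEquiv_red R e hiff ht).symm
  rw [h1, Fermat.Agent.GK.SymDegree.finrank_adjoin_algEquiv,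
    Fermat.Agent.GK.SymDegree.finrank_adjoin_algEquiv]
  exact hdeg

end Generic

/-! ### The modular frame at a prime of good reduction -/

section Modular

open Fermat.Agent.S24 Fermat.Agent.GJ.J1.Val ModularCurve

variable {q : ℕ} (N : ℕ) [NeZero N] (A : ValuationSubring Kbar) (h : ExactDvd q N)
  {ℓ : ℕ} [Fact ℓ.Prime]

/-- **the two Gauss valuations agree at a prime of good reduction**: `W_q` preserves the Gauss
valuation ring `RwBar N A` for `A` over `ℓ ∤ N`. -/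
theorem wAut_mem_RwBar_iff (hℓN : ¬ ℓ ∣ N) (hA : A.LiesOverPrime ℓ) (f : FN N) :
    wAut h f ∈ (redDataBar N A).Rw ↔ f ∈ (redDataBar N A).Rw := by
  have := finiteDimensional_jF N
  have hs := isGaussChart_jF_1 N A
  have hs' : ((redDataBar N A).comapAlgEquiv (wAut h)).IsGaussChart (jF N) :=
    isGaussChart_jF_2 N A h
  have hu : IntRed.Huniq (redDataBar N A) Kbar⟮jF N⟯ :=
    (redDataBar N A).huniq_of_finrank_le (jF N) hs.1 hs.2 (finrank_jF_le N A hℓN hA hs.1)
  have hfwd : ∀ x : FN N, x ∈ (redDataBar N A).Rw → wAut h x ∈ (redDataBar N A).Rw :=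
    map_mem_Rw_of_huniq (wAut h) hs hs' hu
  refine ⟨fun hf => ?_, hfwd f⟩
  have := hfwd _ hf
  rwa [wAut_wAut] at this

/-- **degree preservation at the second chart** `j_q = W_q j`. -/
theorem finrank_wAut_jF_le (hℓN : ¬ ℓ ∣ N) (hA : A.LiesOverPrime ℓ)
    (ht : wAut h (jF N) ∈ (redDataBar N A).Rw) :
    Module.finrank Kbar⟮wAut h (jF N)⟯ (FN N) ≤
      Module.finrank (IsLocalRing.ResidueField A)⟮(redDataBar N A).red ⟨wAut h (jF N), ht⟩⟯
        (FresBar N A) := by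
  have hs := isGaussChart_jF_1 N A
  exact finrank_le_map (redDataBar N A) (wAut h) (wAut_mem_RwBar_iff N A h hℓN hA) hs.1
    (finrank_jF_le N A hℓN hA hs.1) ht

end Modular

end Fermat.Agent.GZ.Mod.Inst
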